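/-
S56lib / TWSel / Places (lead).  Valuation subrings of `ℚ̄` over a rational prime `ℓ`:
* element-wise characterisation of Frobenius elements and of the inertia group;
* two Frobenius elements at the same place differ by inertia;
* `G_ℚ` permutes the places over `ℓ` transitively; conjugation of Frobenius and inertia.
-/
import Mathlib
import Fermat.Prelude.Def_EllipticCurve_FrobeniusTrace
import Fermat.Prelude.Def_FLTPrelim_Ramification
import Fermat.Agent.Helper5.FrobExists

set_option autoImplicit false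

noncomputable section

namespace Fermat.Agent.S56lib.TWSel

open Fermat.Agent.Helper5
open scoped Pointwise

variable {A : ValuationSubring Qbar}

/-- membership in the decomposition group, element-wise -/
lemma mem_decomp_iff {σ : GQ} : σ ∈ A.decompositionSubgroup ℚ ↔ σ • A = A := Iff.rfl

lemma apply_mem_of_mem_decomp {σ : GQ} (hσ : σ ∈ A.decompositionSubgroup ℚ) {x : Qbar}
    (hx : x ∈ A) : σ x ∈ A := by
  have h : σ • x ∈ σ • A := ValuationSubring.smul_mem_pointwise_smul σ x A hx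
  rw [mem_decomp_iff.1 hσ] at h
  exact h

/-- the action of the decomposition group on the residue field, on representatives -/
lemma decomp_smul_residue {σ : GQ} (hσ : σ ∈ A.decompositionSubgroup ℚ) (a : A) :
    (⟨σ, hσ⟩ : A.decompositionSubgroup ℚ) • IsLocalRing.residue A a
      = IsLocalRing.residue A ⟨σ a, apply_mem_of_mem_decomp hσ a.2⟩ := by
  rw [← IsLocalRing.ResidueField.residue_smul]
  rfl

/-- element-wise characterisation of Frobenius elements -/
theorem isFrobeniusAt_iff {σ : GQ} {ℓ : ℕ} :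
    A.IsFrobeniusAt σ ℓ ↔ σ ∈ A.decompositionSubgroup ℚ ∧
      ∀ a : Qbar, a ∈ A → σ a - a ^ ℓ ∈ A.nonunits := by
  constructor
  · rintro ⟨hσ, h⟩
    refine ⟨hσ, fun a ha => ?_⟩
    have h1 := h (IsLocalRing.residue A ⟨a, ha⟩)
    rw [decomp_smul_residue hσ, ← map_pow, ← sub_eq_zero, ← map_sub,
      IsLocalRing.residue_eq_zero_iff, ← ValuationSubring.coe_mem_nonunits_iff] at h1
    exact h1
  · rintro ⟨hσ, h⟩
    refine ⟨hσ, fun x => ?_⟩
    obtain ⟨a, rfl⟩ := IsLocalRing.residue_surjective x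
    rw [decomp_smul_residue hσ, ← map_pow, ← sub_eq_zero, ← map_sub,
      IsLocalRing.residue_eq_zero_iff, ← ValuationSubring.coe_mem_nonunits_iff]
    exact h a a.2

/-- element-wise characterisation of the inertia group -/
theorem mem_inertiaSubgroupIn_iff {σ : GQ} :
    σ ∈ A.inertiaSubgroupIn ℚ ↔ σ ∈ A.decompositionSubgroup ℚ ∧
      ∀ a : Qbar, a ∈ A → σ a - a ∈ A.nonunits := by
  rw [ValuationSubring.inertiaSubgroupIn, Subgroup.mem_map]
  constructor
  · rintro ⟨d, hd, rfl⟩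
    refine ⟨d.2, fun a ha => ?_⟩
    rw [ValuationSubring.inertiaSubgroup, MonoidHom.mem_ker] at hd
    have h1 := congrArg (fun f : RingAut (IsLocalRing.ResidueField A) =>
      f (IsLocalRing.residue A ⟨a, ha⟩)) hd
    simp only [MulSemiringAction.toRingAut_apply, RingAut.one_apply] at h1
    change d • IsLocalRing.residue A ⟨a, ha⟩ = _ at h1
    have h2 : d • IsLocalRing.residue A ⟨a, ha⟩ = IsLocalRing.residue A ⟨d.1 a, apply_mem_of_mem_decomp d.2 ha⟩ :=
      decomp_smul_residue d.2 ⟨a, ha⟩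
    rw [h2, ← sub_eq_zero, ← map_sub, IsLocalRing.residue_eq_zero_iff,
      ← ValuationSubring.coe_mem_nonunits_iff] at h1
    exact h1
  · rintro ⟨hσ, h⟩
    refine ⟨⟨σ, hσ⟩, ?_, rfl⟩
    rw [ValuationSubring.inertiaSubgroup, MonoidHom.mem_ker]
    ext x
    obtain ⟨a, rfl⟩ := IsLocalRing.residue_surjective x
    simp only [MulSemiringAction.toRingAut_apply, RingAut.one_apply]
    change (⟨σ, hσ⟩ : A.decompositionSubgroup ℚ) • IsLocalRing.residue A a = _
    rw [decomp_smul_residue hσ, ← sub_eq_zero, ← map_sub, IsLocalRing.residue_eq_zero_iff,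
      ← ValuationSubring.coe_mem_nonunits_iff]
    exact h a a.2

/-! ### nonunits and the decomposition group -/

lemma inv_mem_decomp {σ : GQ} (hσ : σ ∈ A.decompositionSubgroup ℚ) :
    σ⁻¹ ∈ A.decompositionSubgroup ℚ := (A.decompositionSubgroup ℚ).inv_mem hσ

lemma apply_mem_nonunits_of_mem_decomp {σ : GQ} (hσ : σ ∈ A.decompositionSubgroup ℚ) {x : Qbar}
    (hx : x ∈ A.nonunits) : σ x ∈ A.nonunits := by
  rw [ValuationSubring.mem_nonunits_iff_or] at hx ⊢
  rcases hx with rfl | hx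
  · left; exact map_zero σ
  · right
    intro h
    apply hx
    have h1 := apply_mem_of_mem_decomp (inv_mem_decomp hσ) h
    rw [← map_inv₀] at h1
    have h2 : σ⁻¹ (σ x⁻¹) = x⁻¹ := by
      change σ.symm (σ x⁻¹) = x⁻¹
      exact σ.symm_apply_apply _
    rwa [h2] at h1

lemma add_mem_nonunits {x y : Qbar} (hx : x ∈ A.nonunits) (hy : y ∈ A.nonunits) :
    x + y ∈ A.nonunits := by
  rw [ValuationSubring.mem_nonunits_iff] at hx hy ⊢
  exact lt_of_le_of_lt (A.valuation.map_add x y) (max_lt hx hy)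

lemma sub_mem_nonunits {x y : Qbar} (hx : x ∈ A.nonunits) (hy : y ∈ A.nonunits) :
    x - y ∈ A.nonunits := by
  rw [ValuationSubring.mem_nonunits_iff] at hx hy ⊢
  exact lt_of_le_of_lt (A.valuation.map_sub x y) (max_lt hx hy)

lemma mul_mem_nonunits_of_mem {x y : Qbar} (hx : x ∈ A) (hy : y ∈ A.nonunits) :
    x * y ∈ A.nonunits := by
  rw [ValuationSubring.mem_nonunits_iff] at hy ⊢
  rw [map_mul]
  exact mul_lt_one_of_nonneg_of_lt_one_right ((A.valuation_le_one_iff x).2 hx) zero_le hy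

/-- two Frobenius elements at the same place differ by an element of inertia -/
theorem inv_mul_mem_inertia_of_isFrobeniusAt {φ φ' : GQ} {ℓ : ℕ} (h : A.IsFrobeniusAt φ ℓ)
    (h' : A.IsFrobeniusAt φ' ℓ) : φ⁻¹ * φ' ∈ A.inertiaSubgroupIn ℚ := by
  rw [isFrobeniusAt_iff] at h h'
  rw [mem_inertiaSubgroupIn_iff]
  refine ⟨(A.decompositionSubgroup ℚ).mul_mem (inv_mem_decomp h.1) h'.1, fun a ha => ?_⟩
  have h1 : φ' a - φ a ∈ A.nonunits := by
    have := sub_mem_nonunits (h'.2 a ha) (h.2 a ha)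
    rwa [sub_sub_sub_cancel_right] at this
  have h2 := apply_mem_nonunits_of_mem_decomp (inv_mem_decomp h.1) h1
  have h3 : φ⁻¹ (φ' a - φ a) = (φ⁻¹ * φ') a - a := by
    rw [map_sub, AlgEquiv.mul_apply]
    congr 1
    change φ.symm (φ a) = a
    exact φ.symm_apply_apply a
  rwa [h3] at h2

/-! ### conjugation -/

lemma mem_smul_iff {g : GQ} {x : Qbar} : x ∈ g • A ↔ g⁻¹ x ∈ A :=
  ValuationSubring.mem_pointwise_smul_iff_inv_smul_mem

lemma inv_apply_apply (g : GQ) (x : Qbar) : g⁻¹ (g x) = x := by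
  change g.symm (g x) = x
  exact g.symm_apply_apply x

lemma apply_inv_apply (g : GQ) (x : Qbar) : g (g⁻¹ x) = x := by
  change g (g.symm x) = x
  exact g.apply_symm_apply x

lemma mem_nonunits_smul_iff {g : GQ} {x : Qbar} : x ∈ (g • A).nonunits ↔ g⁻¹ x ∈ A.nonunits := by
  rw [ValuationSubring.mem_nonunits_iff_or, ValuationSubring.mem_nonunits_iff_or, mem_smul_iff,
    map_inv₀]
  constructor
  · rintro (rfl | h)
    · left; exact map_zero _
    · right; exact h
  · rintro (h | h)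
    · left
      have := congrArg g h
      rwa [apply_inv_apply, map_zero] at this
    · right; exact h

lemma conj_mem_decomp_smul {g σ : GQ} (hσ : σ ∈ A.decompositionSubgroup ℚ) :
    g * σ * g⁻¹ ∈ (g • A).decompositionSubgroup ℚ := by
  rw [mem_decomp_iff, mul_smul, mul_smul, inv_smul_smul, mem_decomp_iff.1 hσ]

theorem isFrobeniusAt_conj {g φ : GQ} {ℓ : ℕ} (h : A.IsFrobeniusAt φ ℓ) :
    (g • A).IsFrobeniusAt (g * φ * g⁻¹) ℓ := by
  rw [isFrobeniusAt_iff] at h ⊢
  refine ⟨conj_mem_decomp_smul h.1, fun a ha => ?_⟩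
  rw [mem_smul_iff] at ha
  rw [mem_nonunits_smul_iff, map_sub, map_pow, AlgEquiv.mul_apply, AlgEquiv.mul_apply,
    inv_apply_apply]
  exact h.2 _ ha

theorem conj_mem_inertia {g σ : GQ} (h : σ ∈ A.inertiaSubgroupIn ℚ) :
    g * σ * g⁻¹ ∈ (g • A).inertiaSubgroupIn ℚ := by
  rw [mem_inertiaSubgroupIn_iff] at h ⊢
  refine ⟨conj_mem_decomp_smul h.1, fun a ha => ?_⟩
  rw [mem_smul_iff] at ha
  have h1 := h.2 _ ha
  rw [mem_nonunits_smul_iff, map_sub, AlgEquiv.mul_apply, AlgEquiv.mul_apply, inv_apply_apply]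
  exact h1

theorem liesOverPrime_smul {g : GQ} {ℓ : ℕ} (h : A.LiesOverPrime ℓ) : (g • A).LiesOverPrime ℓ := by
  rw [ValuationSubring.LiesOverPrime] at h ⊢
  rw [mem_nonunits_smul_iff, map_natCast]
  exact h

/-! ### the prime of `ℤ̄` cut out by a valuation subring; transitivity -/

lemma zbar_mem (A : ValuationSubring Qbar) (b : Zbar) : (b : Qbar) ∈ A := by
  have h1 : IsIntegral A (b : Qbar) := b.2.tower_top
  obtain ⟨y, hy⟩ := IsIntegrallyClosed.algebraMap_eq_of_integral (R := A) (K := Qbar) h1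
  rw [← hy]
  exact y.2

/-- the prime ideal of `ℤ̄` cut out by a valuation subring of `ℚ̄` -/
def primeOf (A : ValuationSubring Qbar) : Ideal Zbar where
  carrier := {b | (b : Qbar) ∈ A.nonunits}
  add_mem' := fun {a b} ha hb => add_mem_nonunits ha hb
  zero_mem' := by
    change ((0 : Zbar) : Qbar) ∈ A.nonunits
    rw [ValuationSubring.mem_nonunits_iff_or]
    left; rfl
  smul_mem' := fun c b hb => mul_mem_nonunits_of_mem (zbar_mem A c) hb

lemma mem_primeOf {A : ValuationSubring Qbar} {b : Zbar} :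
    b ∈ primeOf A ↔ (b : Qbar) ∈ A.nonunits := Iff.rfl

instance primeOf_isPrime (A : ValuationSubring Qbar) : (primeOf A).IsPrime := by
  refine ⟨?_, ?_⟩
  · rw [Ideal.ne_top_iff_one, mem_primeOf, ValuationSubring.mem_nonunits_iff]
    simp
  · intro a b hab
    rw [mem_primeOf, ValuationSubring.mem_nonunits_iff] at hab ⊢
    rw [mem_primeOf, ValuationSubring.mem_nonunits_iff]
    by_contra hcon
    rw [not_or, not_lt, not_lt] at hcon
    have ha : A.valuation (a : Qbar) = 1 :=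
      le_antisymm ((A.valuation_le_one_iff _).2 (zbar_mem A a)) hcon.1
    have hb : A.valuation (b : Qbar) = 1 :=
      le_antisymm ((A.valuation_le_one_iff _).2 (zbar_mem A b)) hcon.2
    have : A.valuation ((a * b : Zbar) : Qbar) = 1 := by
      rw [Subalgebra.coe_mul, map_mul, ha, hb, one_mul]
    rw [this] at hab
    exact lt_irrefl _ hab

lemma natCast_mem_primeOf {A : ValuationSubring Qbar} {ℓ : ℕ} (hA : A.LiesOverPrime ℓ) :
    (ℓ : Zbar) ∈ primeOf A := by
  rw [mem_primeOf]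
  have : ((ℓ : Zbar) : Qbar) = (ℓ : Qbar) := by simp
  rw [this]
  exact hA

lemma span_prime_isMaximal {ℓ : ℕ} (hℓ : ℓ.Prime) : (Ideal.span {(ℓ : ℤ)}).IsMaximal :=
  (Ideal.span_singleton_prime (by exact_mod_cast hℓ.ne_zero)).mpr
    (Nat.prime_iff_prime_int.mp hℓ) |>.isMaximal (by simpa using hℓ.ne_zero)

theorem primeOf_under {A : ValuationSubring Qbar} {ℓ : ℕ} (hℓ : ℓ.Prime) (hA : A.LiesOverPrime ℓ) :
    Ideal.span {(ℓ : ℤ)} = (primeOf A).under ℤ := by
  have hmax := span_prime_isMaximal hℓ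
  refine hmax.eq_of_le ?_ ?_
  · exact (Ideal.IsPrime.under ℤ (primeOf A)).ne_top
  · rw [Ideal.span_singleton_le_iff_mem, Ideal.mem_comap]
    have := natCast_mem_primeOf hA
    simpa using this

lemma liesOver_primeOf {A : ValuationSubring Qbar} {ℓ : ℕ} (hℓ : ℓ.Prime)
    (hA : A.LiesOverPrime ℓ) : (primeOf A).LiesOver (Ideal.span {(ℓ : ℤ)}) :=
  ⟨primeOf_under hℓ hA⟩

lemma unit_of_not_mem_primeOf {A : ValuationSubring Qbar} {s : Zbar} (hs : s ∉ primeOf A) :
    ((s : Qbar))⁻¹ ∈ A := by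
  rw [mem_primeOf, ValuationSubring.mem_nonunits_iff_or, not_or, not_not] at hs
  exact hs.2

/-- a valuation subring of `ℚ̄` over `ℓ` is the localisation of `ℤ̄` at its prime -/
theorem mem_iff_exists_primeOf {A : ValuationSubring Qbar} {ℓ : ℕ} (hℓ : ℓ.Prime)
    (hA : A.LiesOverPrime ℓ) (x : Qbar) :
    x ∈ A ↔ ∃ s : Zbar, s ∉ primeOf A ∧ (s : Qbar) * x ∈ Zbar := by
  have : Fact ℓ.Prime := ⟨hℓ⟩
  have := liesOver_primeOf hℓ hA
  constructor
  · intro hx
    rw [← mem_Vloc_iff (primeOf A) ℓ]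
    by_contra hxV
    have hx0 : x ≠ 0 := by
      rintro rfl
      exact hxV (zero_mem _)
    have hinv : x⁻¹ ∈ (Vloc (primeOf A) ℓ).nonunits := by
      rw [ValuationSubring.mem_nonunits_iff_or, inv_inv]
      right; exact hxV
    rw [mem_nonunits_Vloc_iff] at hinv
    obtain ⟨s, hs, b, hb, hsb⟩ := hinv
    have h1 : x⁻¹ = (s : Qbar)⁻¹ * (b : Qbar) := by
      have hs0 := coe_ne_zero_of_not_mem (primeOf A) hs
      rw [← hsb]
      field_simp
    have h2 : x⁻¹ ∈ A.nonunits := by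
      rw [h1]
      exact mul_mem_nonunits_of_mem (unit_of_not_mem_primeOf hs) hb
    have h3 : x * x⁻¹ ∈ A.nonunits := mul_mem_nonunits_of_mem hx h2
    rw [mul_inv_cancel₀ hx0, ValuationSubring.mem_nonunits_iff] at h3
    simp at h3
  · rintro ⟨s, hs, hsx⟩
    have hs0 : (s : Qbar) ≠ 0 := by
      intro h0
      apply hs
      have : s = 0 := Subtype.ext h0
      rw [this]; exact (primeOf A).zero_mem
    have : x = (s : Qbar)⁻¹ * ((s : Qbar) * x) := by field_simp
    rw [this]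
    exact A.mul_mem _ _ (unit_of_not_mem_primeOf hs) (zbar_mem A ⟨_, hsx⟩)

theorem eq_of_primeOf_eq {A A' : ValuationSubring Qbar} {ℓ : ℕ} (hℓ : ℓ.Prime)
    (hA : A.LiesOverPrime ℓ) (hA' : A'.LiesOverPrime ℓ) (h : primeOf A = primeOf A') : A = A' := by
  ext x
  rw [mem_iff_exists_primeOf hℓ hA, mem_iff_exists_primeOf hℓ hA', h]

theorem primeOf_smul (A : ValuationSubring Qbar) (g : GQ) : primeOf (g • A) = g • primeOf A := by
  ext b
  rw [mem_primeOf, mem_nonunits_smul_iff, Ideal.mem_pointwise_smul_iff_inv_smul_mem, mem_primeOf]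
  rfl

/-- **`G_ℚ` permutes the places of `ℚ̄` over `ℓ` transitively.** -/
theorem exists_smul_eq_of_liesOverPrime {A A' : ValuationSubring Qbar} {ℓ : ℕ} (hℓ : ℓ.Prime)
    (hA : A.LiesOverPrime ℓ) (hA' : A'.LiesOverPrime ℓ) : ∃ g : GQ, A' = g • A := by
  have hu : (primeOf A).under ℤ = (primeOf A').under ℤ := by
    rw [← primeOf_under hℓ hA, ← primeOf_under hℓ hA']
  obtain ⟨g, hg⟩ := Algebra.IsInvariant.exists_smul_of_under_eq_of_profinite (A := ℤ) (B := Zbar)
    (G := GQ) (primeOf A) (primeOf A') hu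
  refine ⟨g, ?_⟩
  apply eq_of_primeOf_eq hℓ hA' (liesOverPrime_smul hA)
  rw [primeOf_smul, hg]

end Fermat.Agent.S56lib.TWSel
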