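/-
S56lib / TWSel / LocGlob (lead).  **The local Galois group fills the decomposition group, level by
level**: for `σ` in the decomposition group of the standard place `padicPlace q` of `ℚ̄` and every
finite Galois level `F`, there is `τ ∈ Gal(ℚ̄_q/ℚ_q)` with `localGaloisToGlobal q τ ≡ σ` modulo
`Gal(ℚ̄/F)`.  Proof: elements of `F` fixed by the image of the local group embed into `ℚ_q`, hence are
`q`-adic limits of rationals, hence are fixed by every `σ` preserving the place.

Consequence for cocycles: a level-constant 1-cocycle whose restriction to the local group is a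
coboundary `τ ↦ τm - m` satisfies `c σ = σ m - m` for EVERY `σ` in the decomposition group.
-/
import Mathlib
import Fermat.Prelude.Def_GaloisRep_CompletionBridge

set_option autoImplicit false

noncomputable section

namespace Fermat.Agent.S56lib.TWSel

open scoped Pointwise NNReal

variable (q : ℕ) [Fact q.Prime]

local notation "Ω" => PadicAlgCl q
local notation "ι" => padicEmbedding q
local notation "Qbar" => AlgebraicClosure ℚ
local notation "GQ" => (AlgebraicClosure ℚ ≃ₐ[ℚ] AlgebraicClosure ℚ)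

lemma norm_q_lt_one : ‖(q : Ω)‖ < 1 := by
  have h : ((q : ℚ_[q]) : Ω) = (q : Ω) := by simp
  rw [← h, PadicAlgCl.norm_extends, Padic.norm_p]
  exact inv_lt_one_of_one_lt₀ (by exact_mod_cast (Fact.out : q.Prime).one_lt)

lemma norm_q_pos : 0 < ‖(q : Ω)‖ := by
  rw [norm_pos_iff]
  exact_mod_cast (Fact.out : q.Prime).ne_zero

lemma mem_padicPlace_iff_norm_le {x : Qbar} : x ∈ padicPlace q ↔ ‖ι x‖ ≤ 1 := by
  rw [mem_padicPlace_iff, ← NNReal.coe_le_coe]
  rfl

lemma apply_mem_padicPlace {σ : GQ} (hσ : σ ∈ (padicPlace q).decompositionSubgroup ℚ) {x : Qbar}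
    (hx : x ∈ padicPlace q) : σ x ∈ padicPlace q := by
  have h : σ • x ∈ σ • padicPlace q := ValuationSubring.smul_mem_pointwise_smul σ x _ hx
  have h2 : σ • padicPlace q = padicPlace q := hσ
  rw [h2] at h
  exact h

/-- the decomposition group preserves `‖·‖ ≤ ‖q‖ ^ N` -/
lemma norm_apply_le_of_mem_decomp {σ : GQ} (hσ : σ ∈ (padicPlace q).decompositionSubgroup ℚ)
    (y : Qbar) (N : ℕ) (hy : ‖ι y‖ ≤ ‖(q : Ω)‖ ^ N) : ‖ι (σ y)‖ ≤ ‖(q : Ω)‖ ^ N := by
  have hq0 : (q : Qbar) ≠ 0 := by exact_mod_cast (Fact.out : q.Prime).ne_zero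
  have hqN : 0 < ‖(q : Ω)‖ ^ N := pow_pos (norm_q_pos q) N
  have h1 : y / (q : Qbar) ^ N ∈ padicPlace q := by
    rw [mem_padicPlace_iff_norm_le, map_div₀, map_pow, map_natCast, norm_div, norm_pow,
      div_le_one hqN]
    exact hy
  have h2 := apply_mem_padicPlace q hσ h1
  rw [map_div₀, map_pow, map_natCast, mem_padicPlace_iff_norm_le, map_div₀, map_pow, map_natCast,
    norm_div, norm_pow, div_le_one hqN] at h2
  exact h2

/-- an element of `ℚ̄` whose image in `ℚ̄_q` lies in `ℚ_q` is fixed by the decomposition group -/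
theorem apply_eq_of_mem_decomp {σ : GQ} (hσ : σ ∈ (padicPlace q).decompositionSubgroup ℚ)
    {x : Qbar} (hx : ι x ∈ Set.range (algebraMap ℚ_[q] Ω)) : σ x = x := by
  obtain ⟨a, ha⟩ := hx
  have hsmall : ∀ N : ℕ, ‖ι (σ x - x)‖ ≤ ‖(q : Ω)‖ ^ N := by
    intro N
    -- approximate `a` by a rational `r`
    have hd : DenseRange (algebraMap ℚ ℚ_[q]) := by
      have : (algebraMap ℚ ℚ_[q] : ℚ → ℚ_[q]) = ((↑) : ℚ → ℚ_[q]) :=
        funext fun x => eq_ratCast _ x
      rw [this]
      exact Padic.denseRange_ratCast q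
    obtain ⟨r, hr⟩ : ∃ r : ℚ, ‖a - algebraMap ℚ ℚ_[q] r‖ < ‖(q : Ω)‖ ^ N := by
      have := hd.exists_dist_lt a (pow_pos (norm_q_pos q) N)
      obtain ⟨r, hr⟩ := this
      exact ⟨r, by rwa [dist_eq_norm] at hr⟩
    set y : Qbar := x - algebraMap ℚ Qbar r with hy
    have hιy : ι y = algebraMap ℚ_[q] Ω (a - algebraMap ℚ ℚ_[q] r) := by
      rw [hy, map_sub, ← ha, map_sub, AlgHom.commutes]
      congr 1
    have hynorm : ‖ι y‖ ≤ ‖(q : Ω)‖ ^ N := by
      rw [hιy]
      have : ‖algebraMap ℚ_[q] Ω (a - algebraMap ℚ ℚ_[q] r)‖ = ‖a - algebraMap ℚ ℚ_[q] r‖ :=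
        PadicAlgCl.norm_extends q _
      rw [this]
      exact hr.le
    have hσy : σ x - x = σ y - y := by
      rw [hy, map_sub, AlgEquiv.commutes]
      ring
    rw [hσy, map_sub]
    have hmax : ‖ι (σ y) - ι y‖ ≤ max ‖ι (σ y)‖ ‖ι y‖ := by
      have := IsUltrametricDist.norm_add_le_max (ι (σ y)) (-(ι y))
      rwa [norm_neg, ← sub_eq_add_neg] at this
    refine le_trans hmax (max_le ?_ hynorm)
    exact norm_apply_le_of_mem_decomp q hσ y N hynorm
  have h0 : ‖ι (σ x - x)‖ = 0 := by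
    by_contra hne
    have hpos : 0 < ‖ι (σ x - x)‖ := lt_of_le_of_ne (norm_nonneg _) (Ne.symm hne)
    obtain ⟨N, hN⟩ := exists_pow_lt_of_lt_one hpos (norm_q_lt_one q)
    exact absurd (hsmall N) (not_le.2 hN)
  rw [norm_eq_zero, map_eq_zero] at h0
  exact sub_eq_zero.1 h0

omit [Fact q.Prime] in
lemma restrictNormalHom_coe (F : IntermediateField ℚ Qbar) [Normal ℚ F] (σ : GQ) (x : F) :
    ((AlgEquiv.restrictNormalHom F σ x : F) : Qbar) = σ (x : Qbar) :=
  AlgEquiv.restrictNormal_commutes σ F x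

/-- **The local Galois group fills the decomposition group modulo every finite Galois level.** -/
theorem exists_local_lift {σ : GQ} (hσ : σ ∈ (padicPlace q).decompositionSubgroup ℚ)
    (F : IntermediateField ℚ Qbar) [FiniteDimensional ℚ F] [IsGalois ℚ F] :
    ∃ τ : Ω ≃ₐ[ℚ_[q]] Ω, (localGaloisToGlobal q τ)⁻¹ * σ ∈ F.fixingSubgroup := by
  set res : GQ →* (F ≃ₐ[ℚ] F) := AlgEquiv.restrictNormalHom F with hres
  set H : Subgroup (F ≃ₐ[ℚ] F) := (res.comp (localGaloisToGlobal q)).range with hH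
  have hfix : res σ ∈ (IntermediateField.fixedField H).fixingSubgroup := by
    rw [IntermediateField.mem_fixingSubgroup_iff]
    intro x hx
    rw [IntermediateField.mem_fixedField_iff] at hx
    have hι : ι (x : Qbar) ∈ Set.range (algebraMap ℚ_[q] Ω) := by
      rw [InfiniteGalois.mem_range_algebraMap_iff_fixed]
      intro τ
      have h1 := hx (res (localGaloisToGlobal q τ)) ⟨τ, rfl⟩
      have h2 : (localGaloisToGlobal q τ) (x : Qbar) = x := by
        rw [← restrictNormalHom_coe F]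
        exact congrArg (fun y : F => (y : Qbar)) h1
      rw [← padicEmbedding_localGaloisToGlobal, h2]
    have h3 := apply_eq_of_mem_decomp q hσ hι
    apply Subtype.ext
    change ((res σ x : F) : Qbar) = x
    rw [hres, restrictNormalHom_coe F, h3]
  rw [IntermediateField.fixingSubgroup_fixedField] at hfix
  obtain ⟨τ, hτ⟩ := hfix
  refine ⟨τ, ?_⟩
  rw [IntermediateField.mem_fixingSubgroup_iff]
  intro x hx
  have h4 : ((res (localGaloisToGlobal q τ) ⟨x, hx⟩ : F) : Qbar) = ((res σ ⟨x, hx⟩ : F) : Qbar) := by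
    rw [← hτ]; rfl
  rw [hres, restrictNormalHom_coe F, restrictNormalHom_coe F] at h4
  change ((localGaloisToGlobal q τ)⁻¹ * σ) x = x
  rw [AlgEquiv.mul_apply, ← h4]
  change (localGaloisToGlobal q τ).symm ((localGaloisToGlobal q τ) x) = x
  exact AlgEquiv.symm_apply_apply _ _

end Fermat.Agent.S56lib.TWSel
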