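/-
S56lib / TWSel / Frob (lead).  From the two-sided weak Chebotarev theorem to ONE Taylor–Wiles prime:
given `σ : G_ℚ` fixing `ζ_N`, with `ρ̄(σ)` of distinct eigenvalues and a cocycle `ψ` with
`ψ(σ) ∉ (σ - 1)·A`, there is a prime `ℓ ∉ S₀` with `N ∣ ℓ - 1` such that EVERY Frobenius `φ` at EVERY
place over `ℓ` has `ρ̄(φ)` of distinct eigenvalues and `ψ(φ) ∉ (φ - 1)·A`.
-/
import Mathlib
import Fermat.Agent.S56lib.TWSel.WeakCheb2
import Fermat.Agent.S56lib.TWSel.Places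
import Fermat.Prelude.Def_GaloisRep_Residual

set_option autoImplicit false

noncomputable section

namespace Fermat.Agent.S56lib.TWSel

open Fermat.Agent.Helper5 Polynomial
open scoped Pointwise

/-! ### `N ∣ ℓ - 1` from a Frobenius fixing `ζ_N` -/

lemma isIntegral_of_isPrimitiveRoot {ζ : Qbar} {N : ℕ} (hN : 0 < N) (hζ : IsPrimitiveRoot ζ N) :
    IsIntegral ℤ ζ :=
  ⟨X ^ N - 1, monic_X_pow_sub_C 1 hN.ne', by simp [hζ.pow_eq_one]⟩

theorem dvd_sub_one_of_frobenius_fixes {A : ValuationSubring Qbar} {ℓ N : ℕ} (hℓ : ℓ.Prime)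
    (hA : A.LiesOverPrime ℓ) (hN : 0 < N) (hcop : Nat.Coprime N ℓ) {ζ : Qbar}
    (hζ : IsPrimitiveRoot ζ N) {φ : GQ} (hφ : A.IsFrobeniusAt φ ℓ) (hfix : φ ζ = ζ) :
    N ∣ ℓ - 1 := by
  by_contra hnd
  have hζA : ∀ i : ℕ, ζ ^ i ∈ A := fun i =>
    zbar_mem A ⟨ζ ^ i, (isIntegral_of_isPrimitiveRoot hN hζ).pow i⟩
  -- Frobenius congruence
  have h1 : ζ - ζ ^ ℓ ∈ A.nonunits := by
    have := (isFrobeniusAt_iff.1 hφ).2 ζ (by simpa using hζA 1)
    rwa [hfix] at this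
  -- `1 - ζ ^ (ℓ - 1)` is a nonunit
  have hℓ1 : ℓ = (ℓ - 1) + 1 := (Nat.sub_add_cancel hℓ.one_le).symm
  have h2 : 1 - ζ ^ (ℓ - 1) ∈ A.nonunits := by
    have h3 : ζ ^ (N - 1) * (ζ - ζ ^ ℓ) = 1 - ζ ^ (ℓ - 1) := by
      have hN1 : ζ ^ (N - 1) * ζ = 1 := by
        rw [← pow_succ, Nat.sub_add_cancel hN, hζ.pow_eq_one]
      have : ζ ^ ℓ = ζ * ζ ^ (ℓ - 1) := by
        conv_lhs => rw [hℓ1, pow_succ']
      rw [this, mul_sub, hN1, ← mul_assoc, hN1, one_mul]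
    rw [← h3]
    exact mul_mem_nonunits_of_mem (hζA _) h1
  -- reduce the exponent mod `N`
  set m := (ℓ - 1) % N with hm
  have hm0 : m ≠ 0 := fun h0 => hnd (Nat.dvd_of_mod_eq_zero h0)
  have hmN : m < N := Nat.mod_lt _ hN
  have hpow : ζ ^ (ℓ - 1) = ζ ^ m := by
    conv_lhs => rw [← Nat.div_add_mod (ℓ - 1) N, pow_add, pow_mul, hζ.pow_eq_one, one_pow, one_mul]
  rw [hpow] at h2
  -- `N` is a multiple of `1 - ζ ^ m` in `A`
  obtain ⟨n, rfl⟩ : ∃ n, N = n + 1 := ⟨N - 1, (Nat.sub_add_cancel hN).symm⟩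
  have hprod := hζ.prod_one_sub_pow_eq_order
  have hmem : m - 1 ∈ Finset.range n := by
    rw [Finset.mem_range]; omega
  rw [← Finset.mul_prod_erase _ _ hmem, Nat.sub_add_cancel (Nat.pos_of_ne_zero hm0)] at hprod
  have hrest : ∏ x ∈ (Finset.range n).erase (m - 1), (1 - ζ ^ (x + 1)) ∈ A := by
    refine Subring.prod_mem A.toSubring fun i _ => ?_
    exact A.sub_mem A.one_mem (hζA _)
  have hNmem : ((n + 1 : ℕ) : Qbar) ∈ A.nonunits := by
    have : ((n + 1 : ℕ) : Qbar) = (∏ x ∈ (Finset.range n).erase (m - 1), (1 - ζ ^ (x + 1)))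
        * (1 - ζ ^ m) := by
      push_cast
      rw [← hprod, mul_comm]
    rw [this]
    exact mul_mem_nonunits_of_mem hrest h2
  -- Bezout
  have hcop' : IsCoprime ((n + 1 : ℕ) : ℤ) (ℓ : ℤ) := Nat.isCoprime_iff_coprime.2 hcop
  obtain ⟨a, b, hab⟩ := hcop'
  have h1mem : (1 : Qbar) ∈ A.nonunits := by
    have : (1 : Qbar) = (a : Qbar) * ((n + 1 : ℕ) : Qbar) + (b : Qbar) * (ℓ : Qbar) := by
      have := congrArg (fun z : ℤ => (z : Qbar)) hab
      push_cast at this ⊢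
      rw [this]
    rw [this]
    refine add_mem_nonunits (mul_mem_nonunits_of_mem ?_ hNmem) (mul_mem_nonunits_of_mem ?_ hA)
    · exact intCast_mem A.toSubring a
    · exact intCast_mem A.toSubring b
  rw [ValuationSubring.mem_nonunits_iff] at h1mem
  simp at h1mem

/-! ### distinct eigenvalues pass to a conjugate of a generating power -/

section LinAlg

variable {K V : Type*} [Field K] [AddCommGroup V] [Module K V]

lemma pow_apply_eigenvector {S : Module.End K V} {α : K} {v : V} (hv : S v = α • v) (a : ℕ) :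
    (S ^ a) v = α ^ a • v := by
  induction a with
  | zero => simp
  | succ a ih => rw [pow_succ, Module.End.mul_apply, hv, map_smul, ih, smul_smul, pow_succ, mul_comm]

lemma pow_eq_of_sub_sq_eq_zero {R : Module.End K V} {c γ : K} {v : V} (hv0 : v ≠ 0)
    (hv : R v = c • v) (hR : (R - algebraMap K _ γ) * (R - algebraMap K _ γ) = 0) : c = γ := by
  have h1 : (R - algebraMap K _ γ) v = (c - γ) • v := by
    rw [LinearMap.sub_apply, hv, Module.algebraMap_end_apply, sub_smul]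
  have h2 : ((R - algebraMap K _ γ) * (R - algebraMap K _ γ)) v = ((c - γ) * (c - γ)) • v := by
    rw [Module.End.mul_apply, h1, map_smul, h1, smul_smul]
  rw [hR, LinearMap.zero_apply] at h2
  have h3 := (smul_eq_zero.1 h2.symm).resolve_right hv0
  have h4 : c - γ = 0 := by
    rcases mul_eq_zero.1 h3 with h | h <;> exact h
  exact sub_eq_zero.1 h4

theorem charpoly_roots_ne_of_conj_pow [Module.Finite K V] (S T P P' : Module.End K V) (hPP' : P * P' = 1)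
    (hP'P : P' * P = 1) (a b : ℕ) (hT : T = P * S ^ a * P') (hS : S = (S ^ a) ^ b)
    {α β γ δ : K} (hαβ : α ≠ β) (hSchar : S.charpoly = (X - C α) * (X - C β))
    (hTchar : T.charpoly = (X - C γ) * (X - C δ)) : γ ≠ δ := by
  rintro rfl
  -- Cayley–Hamilton for `T`
  have hCH : (T - algebraMap K _ γ) * (T - algebraMap K _ γ) = 0 := by
    have := LinearMap.aeval_self_charpoly T
    rw [hTchar] at this
    simpa using this
  -- transport to `S ^ a`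
  have hcomm : ∀ Q : Module.End K V, Q * algebraMap K (Module.End K V) γ = algebraMap K _ γ * Q :=
    fun Q => (Algebra.commutes γ Q).symm
  have hconj : S ^ a - algebraMap K _ γ = P' * (T - algebraMap K _ γ) * P := by
    rw [hT, mul_sub, sub_mul]
    congr 1
    · calc S ^ a = (P' * P) * S ^ a * (P' * P) := by rw [hP'P, one_mul, mul_one]
        _ = P' * (P * S ^ a * P') * P := by simp only [mul_assoc]
    · rw [hcomm, mul_assoc, hP'P, mul_one]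
  have hSa : (S ^ a - algebraMap K _ γ) * (S ^ a - algebraMap K _ γ) = 0 := by
    rw [hconj]
    calc P' * (T - algebraMap K _ γ) * P * (P' * (T - algebraMap K _ γ) * P)
        = P' * (T - algebraMap K _ γ) * (P * P') * (T - algebraMap K _ γ) * P := by
          simp only [mul_assoc]
      _ = P' * ((T - algebraMap K _ γ) * (T - algebraMap K _ γ)) * P := by
          rw [hPP', mul_one]; simp only [mul_assoc]
      _ = 0 := by rw [hCH, mul_zero, zero_mul]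
  -- eigenvectors of `S`
  have hα : S.HasEigenvalue α := by
    rw [Module.End.hasEigenvalue_iff_isRoot_charpoly, hSchar]
    simp
  have hβ : S.HasEigenvalue β := by
    rw [Module.End.hasEigenvalue_iff_isRoot_charpoly, hSchar]
    simp
  obtain ⟨v, hv⟩ := hα.exists_hasEigenvector
  obtain ⟨w, hw⟩ := hβ.exists_hasEigenvector
  have hv' : S v = α • v := hv.apply_eq_smul
  have hw' : S w = β • w := hw.apply_eq_smul
  have h1 : α ^ a = γ := pow_eq_of_sub_sq_eq_zero hv.2 (pow_apply_eigenvector hv' a) hSa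
  have h2 : β ^ a = γ := pow_eq_of_sub_sq_eq_zero hw.2 (pow_apply_eigenvector hw' a) hSa
  have h3 : α = (α ^ a) ^ b := by
    have := pow_apply_eigenvector (pow_apply_eigenvector hv' a) b
    rw [← hS, hv'] at this
    have h4 : (α - (α ^ a) ^ b) • v = 0 := by rw [sub_smul, this, sub_self]
    exact sub_eq_zero.1 ((smul_eq_zero.1 h4).resolve_right hv.2)
  have h5 : β = (β ^ a) ^ b := by
    have := pow_apply_eigenvector (pow_apply_eigenvector hw' a) b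
    rw [← hS, hw'] at this
    have h4 : (β - (β ^ a) ^ b) • w = 0 := by rw [sub_smul, this, sub_self]
    exact sub_eq_zero.1 ((smul_eq_zero.1 h4).resolve_right hw.2)
  apply hαβ
  rw [h3, h5, h1, h2]

end LinAlg

/-! ### coboundaries at one element: conjugation and powers -/

section Cocycle

variable {G : Type} [Group G] {R : Type} [CommRing R] (A : Rep R G)

/-- `ψ x ∈ (x - 1)·A` -/
def IsCobAt (ψ : G → A) (x : G) : Prop := ∃ m : A, ψ x = A.ρ x m - m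

variable {A} {ψ : G → A}

lemma cocycle_one (hψ : ∀ g h, ψ (g * h) = ψ g + A.ρ g (ψ h)) : ψ 1 = 0 := by
  have := hψ 1 1
  rw [mul_one, map_one, Module.End.one_apply] at this
  exact left_eq_add.mp this

lemma cocycle_inv (hψ : ∀ g h, ψ (g * h) = ψ g + A.ρ g (ψ h)) (g : G) :
    A.ρ g (ψ g⁻¹) = - ψ g := by
  have := hψ g g⁻¹
  rw [mul_inv_cancel, cocycle_one hψ] at this
  exact (neg_eq_of_add_eq_zero_right this.symm).symm

lemma rho_inv_apply (g : G) (m : A) : A.ρ g⁻¹ (A.ρ g m) = m := by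
  rw [← Module.End.mul_apply, ← map_mul, inv_mul_cancel, map_one, Module.End.one_apply]

lemma rho_apply_inv (g : G) (m : A) : A.ρ g (A.ρ g⁻¹ m) = m := by
  rw [← Module.End.mul_apply, ← map_mul, mul_inv_cancel, map_one, Module.End.one_apply]

lemma cocycle_conj (hψ : ∀ g h, ψ (g * h) = ψ g + A.ρ g (ψ h)) (g x : G) :
    ψ (g * x * g⁻¹) = ψ g + A.ρ g (ψ x) - A.ρ (g * x * g⁻¹) (ψ g) := by
  rw [hψ (g * x) g⁻¹, hψ g x, map_mul (A.ρ) (g * x) g⁻¹, Module.End.mul_apply]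
  have h2 : A.ρ (g * x) (ψ g⁻¹) = - A.ρ (g * x) (A.ρ g⁻¹ (ψ g)) := by
    have h3 : ψ g⁻¹ = - A.ρ g⁻¹ (ψ g) := by
      have := cocycle_inv hψ g
      have h4 := congrArg (A.ρ g⁻¹) this
      rw [rho_inv_apply, map_neg] at h4
      exact h4
    rw [h3, map_neg]
  rw [h2]
  abel

theorem isCobAt_of_conj (hψ : ∀ g h, ψ (g * h) = ψ g + A.ρ g (ψ h)) (g x : G)
    (h : IsCobAt A ψ (g * x * g⁻¹)) : IsCobAt A ψ x := by
  obtain ⟨m, hm⟩ := h
  refine ⟨A.ρ g⁻¹ (m + ψ g), ?_⟩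
  have h1 := cocycle_conj hψ g x
  rw [h1] at hm
  -- `g (ψ x) = (g x g⁻¹)(m + ψ g) - (m + ψ g)`
  have h5 : A.ρ g (ψ x) = A.ρ (g * x * g⁻¹) (m + ψ g) - (m + ψ g) := by
    rw [map_add]
    have h6 := hm
    rw [sub_eq_iff_eq_add] at h6
    calc A.ρ g (ψ x) = (ψ g + A.ρ g (ψ x)) - ψ g := by abel
      _ = _ := by rw [h6]; abel
  have h7 := congrArg (A.ρ g⁻¹) h5
  rw [rho_inv_apply, map_sub, ← Module.End.mul_apply, ← map_mul] at h7
  have h8 : g⁻¹ * (g * x * g⁻¹) = x * g⁻¹ := by group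
  rw [h8, map_mul, Module.End.mul_apply] at h7
  exact h7

theorem isCobAt_pow (hψ : ∀ g h, ψ (g * h) = ψ g + A.ρ g (ψ h)) {x : G} {m : A}
    (h : ψ x = A.ρ x m - m) (j : ℕ) : ψ (x ^ j) = A.ρ (x ^ j) m - m := by
  induction j with
  | zero => rw [pow_zero, cocycle_one hψ, map_one, Module.End.one_apply, sub_self]
  | succ j ih =>
    rw [pow_succ, hψ, ih, h, map_sub, map_mul, Module.End.mul_apply]
    abel

end Cocycle

/-! ### one Taylor–Wiles prime -/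

section Main

variable {k : Type} [Field k] (ρbar : ResidualGaloisRep k) {R : Type} [CommRing R] (A : Rep R GQ)

lemma mem_fixingSubgroup_of_forall {F : IntermediateField ℚ Qbar} {a b : GQ}
    (h : ∀ x ∈ F, a x = b x) : b⁻¹ * a ∈ F.fixingSubgroup := by
  rw [IntermediateField.mem_fixingSubgroup_iff]
  intro x hx
  rw [AlgEquiv.mul_apply, h x hx, inv_apply_apply]

/-- **One Taylor–Wiles prime.**  `F` is a finite Galois level through which `ρ̄`, the coefficient module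
`A` and the cocycle `ψ` factor, unramified outside `S₀` and containing a primitive `N`-th root of unity
`ζ` (all prime divisors of `N` in `S₀`).  If `σ` fixes `ζ` and `ρ̄(σ)` has distinct eigenvalues
`α ≠ β ∈ k`, there is a prime `ℓ ∉ S₀`, `N ∣ ℓ - 1`, such that for EVERY Frobenius `φ` at EVERY place
over `ℓ`: `ρ̄(φ)` has distinct eigenvalues in `k`, and if `ψ(φ) ∈ (φ-1)A` then `ψ(σ) ∈ (σ-1)A`. -/
theorem exists_TW_prime
    (hsplit : ∀ τ : GQ, ∃ α β : k, LinearMap.charpoly (ρbar.ρ τ) = (X - C α) * (X - C β))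
    (F : IntermediateField ℚ Qbar) [FiniteDimensional ℚ F] [IsGalois ℚ F] (S₀ : Finset ℕ)
    (hFur : ∀ ℓ : ℕ, ℓ.Prime → ℓ ∉ S₀ → ∀ A' : ValuationSubring Qbar, A'.LiesOverPrime ℓ →
      A'.inertiaSubgroupIn ℚ ≤ F.fixingSubgroup)
    (hρF : ∀ s ∈ F.fixingSubgroup, ρbar.ρ s = 1)
    (N : ℕ) (hN : 0 < N) (hNS₀ : ∀ ℓ : ℕ, ℓ.Prime → ℓ ∣ N → ℓ ∈ S₀)
    (ζ : Qbar) (hζ : IsPrimitiveRoot ζ N) (hζF : ζ ∈ F)
    (ψ : GQ → A) (hψ : ∀ g h, ψ (g * h) = ψ g + A.ρ g (ψ h))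
    (hψF : ∀ g s, s ∈ F.fixingSubgroup → ψ (g * s) = ψ g)
    (hAF : ∀ s ∈ F.fixingSubgroup, A.ρ s = 1)
    (σ : GQ) (hσζ : σ ζ = ζ) {α β : k} (hαβ : α ≠ β)
    (hσchar : LinearMap.charpoly (ρbar.ρ σ) = (X - C α) * (X - C β)) :
    ∃ ℓ : ℕ, ℓ.Prime ∧ ℓ ∉ S₀ ∧ N ∣ ℓ - 1 ∧
      ∀ A' : ValuationSubring Qbar, A'.LiesOverPrime ℓ → ∀ φ : GQ, A'.IsFrobeniusAt φ ℓ →
        (∃ α' β' : k, α' ≠ β' ∧ LinearMap.charpoly (ρbar.ρ φ) = (X - C α') * (X - C β')) ∧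
        (IsCobAt A ψ φ → IsCobAt A ψ σ) := by
  obtain ⟨ℓ, A₀, φ₀, j, a, hℓ, hℓS₀, hA₀, hφ₀, hσφ, hφσ⟩ := exists_frobenius_zpowers_eq F σ S₀
  -- the two congruences modulo `G_F`
  have h1 : (φ₀ ^ j)⁻¹ * σ ∈ F.fixingSubgroup := mem_fixingSubgroup_of_forall hσφ
  have h2 : (σ ^ a)⁻¹ * φ₀ ∈ F.fixingSubgroup := mem_fixingSubgroup_of_forall hφσ
  have hσeq : σ = φ₀ ^ j * ((φ₀ ^ j)⁻¹ * σ) := by group
  have hφ₀eq : φ₀ = σ ^ a * ((σ ^ a)⁻¹ * φ₀) := by group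
  have hρφ₀ : ρbar.ρ φ₀ = ρbar.ρ σ ^ a := by
    conv_lhs => rw [hφ₀eq, map_mul, hρF _ h2, mul_one, map_pow]
  have hρσ : ρbar.ρ σ = (ρbar.ρ σ ^ a) ^ j := by
    conv_lhs => rw [hσeq, map_mul, hρF _ h1, mul_one, map_pow, hρφ₀]
  have hcop : Nat.Coprime N ℓ := by
    rw [Nat.coprime_comm, Nat.Prime.coprime_iff_not_dvd hℓ]
    exact fun hdvd => hℓS₀ (hNS₀ ℓ hℓ hdvd)
  refine ⟨ℓ, hℓ, hℓS₀, ?_, ?_⟩
  · -- `N ∣ ℓ - 1`
    have hfix : φ₀ ζ = ζ := by
      rw [hφσ ζ hζF]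
      clear hφσ h2 hφ₀eq hρφ₀ hρσ
      induction a with
      | zero => simp
      | succ a ih => rw [pow_succ, AlgEquiv.mul_apply, hσζ, ih]
    exact dvd_sub_one_of_frobenius_fixes hℓ hA₀ hN hcop hζ hφ₀ hfix
  · intro A' hA' φ hφ
    obtain ⟨g, rfl⟩ := exists_smul_eq_of_liesOverPrime hℓ hA₀ hA'
    -- `φ = (g φ₀ g⁻¹) · i` with `i` in inertia, hence in `G_F`
    have hi : (g * φ₀ * g⁻¹)⁻¹ * φ ∈ F.fixingSubgroup :=
      hFur ℓ hℓ hℓS₀ _ hA' (inv_mul_mem_inertia_of_isFrobeniusAt (isFrobeniusAt_conj hφ₀) hφ)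
    have hφeq : φ = (g * φ₀ * g⁻¹) * ((g * φ₀ * g⁻¹)⁻¹ * φ) := by group
    constructor
    · obtain ⟨γ, δ, hγδ⟩ := hsplit φ
      refine ⟨γ, δ, ?_, hγδ⟩
      have hT : ρbar.ρ φ = ρbar.ρ g * (ρbar.ρ σ) ^ a * ρbar.ρ g⁻¹ := by
        conv_lhs => rw [hφeq, map_mul, hρF _ hi, mul_one, map_mul, map_mul, hρφ₀]
      have hPP' : ρbar.ρ g * ρbar.ρ g⁻¹ = 1 := by rw [← map_mul, mul_inv_cancel, map_one]
      have hP'P : ρbar.ρ g⁻¹ * ρbar.ρ g = 1 := by rw [← map_mul, inv_mul_cancel, map_one]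
      exact charpoly_roots_ne_of_conj_pow (ρbar.ρ σ) (ρbar.ρ φ) (ρbar.ρ g) (ρbar.ρ g⁻¹) hPP' hP'P a j
        hT hρσ hαβ hσchar hγδ
    · rintro ⟨m, hm⟩
      -- move to `g φ₀ g⁻¹`
      have h3 : IsCobAt A ψ (g * φ₀ * g⁻¹) := by
        refine ⟨m, ?_⟩
        rw [hφeq, hψF _ _ hi, map_mul, hAF _ hi, mul_one] at hm
        exact hm
      obtain ⟨m₀, hm₀⟩ := isCobAt_of_conj hψ g φ₀ h3
      refine ⟨m₀, ?_⟩
      have h4 := isCobAt_pow hψ hm₀ j
      rw [hσeq, hψF _ _ h1, map_mul, hAF _ h1, mul_one]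
      exact h4

/-- **A family of Taylor–Wiles primes**, pairwise distinct, one for each cocycle `ψ i`. -/
theorem exists_TW_primes
    (hsplit : ∀ τ : GQ, ∃ α β : k, LinearMap.charpoly (ρbar.ρ τ) = (X - C α) * (X - C β))
    (F : IntermediateField ℚ Qbar) [FiniteDimensional ℚ F] [IsGalois ℚ F]
    (hρF : ∀ s ∈ F.fixingSubgroup, ρbar.ρ s = 1)
    (N : ℕ) (hN : 0 < N) (ζ : Qbar) (hζ : IsPrimitiveRoot ζ N) (hζF : ζ ∈ F)
    (hAF : ∀ s ∈ F.fixingSubgroup, A.ρ s = 1) :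
    ∀ (r : ℕ) (S₀ : Finset ℕ)
      (_hFur : ∀ ℓ : ℕ, ℓ.Prime → ℓ ∉ S₀ → ∀ A' : ValuationSubring Qbar, A'.LiesOverPrime ℓ →
        A'.inertiaSubgroupIn ℚ ≤ F.fixingSubgroup)
      (_hNS₀ : ∀ ℓ : ℕ, ℓ.Prime → ℓ ∣ N → ℓ ∈ S₀)
      (ψ : Fin r → GQ → A) (_hψ : ∀ i g h, ψ i (g * h) = ψ i g + A.ρ g (ψ i h))
      (_hψF : ∀ i g s, s ∈ F.fixingSubgroup → ψ i (g * s) = ψ i g)
      (σ : Fin r → GQ) (_hσζ : ∀ i, σ i ζ = ζ)
      (_hσchar : ∀ i, ∃ α β : k, α ≠ β ∧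
        LinearMap.charpoly (ρbar.ρ (σ i)) = (X - C α) * (X - C β)),
      ∃ qv : Fin r → ℕ, Function.Injective qv ∧
        ∀ i, (qv i).Prime ∧ qv i ∉ S₀ ∧ N ∣ qv i - 1 ∧
          ∀ A' : ValuationSubring Qbar, A'.LiesOverPrime (qv i) → ∀ φ : GQ,
            A'.IsFrobeniusAt φ (qv i) →
            (∃ α' β' : k, α' ≠ β' ∧
              LinearMap.charpoly (ρbar.ρ φ) = (X - C α') * (X - C β')) ∧
            (IsCobAt A (ψ i) φ → IsCobAt A (ψ i) (σ i)) := by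
  intro r
  induction r with
  | zero =>
    intro S₀ _ _ ψ _ _ σ _ _
    exact ⟨Fin.elim0, fun i => i.elim0, fun i => i.elim0⟩
  | succ r ih =>
    intro S₀ hFur hNS₀ ψ hψ hψF σ hσζ hσchar
    obtain ⟨α, β, hαβ, hchar⟩ := hσchar 0
    obtain ⟨ℓ₀, hℓ₀, hℓ₀S, hNℓ₀, hall₀⟩ := exists_TW_prime ρbar A hsplit F S₀ hFur hρF N hN hNS₀ ζ hζ
      hζF (ψ 0) (hψ 0) (hψF 0) hAF (σ 0) (hσζ 0) hαβ hchar
    obtain ⟨qv, hinj, hqv⟩ := ih (insert ℓ₀ S₀)
      (fun ℓ hℓ hℓS => hFur ℓ hℓ (fun h => hℓS (Finset.mem_insert_of_mem h)))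
      (fun ℓ hℓ hdvd => Finset.mem_insert_of_mem (hNS₀ ℓ hℓ hdvd))
      (fun i => ψ i.succ) (fun i => hψ i.succ) (fun i => hψF i.succ)
      (fun i => σ i.succ) (fun i => hσζ i.succ) (fun i => hσchar i.succ)
    refine ⟨Fin.cons ℓ₀ qv, ?_, ?_⟩
    · intro i i' hii'
      refine Fin.cases ?_ (fun i => ?_) i hii' <;> refine Fin.cases ?_ (fun i' => ?_) i'
      · intro _; rfl
      · intro h
        rw [Fin.cons_zero, Fin.cons_succ] at h
        exact absurd (h ▸ Finset.mem_insert_self ℓ₀ S₀) (hqv i').2.1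
      · intro h
        rw [Fin.cons_zero, Fin.cons_succ] at h
        exact absurd (h ▸ Finset.mem_insert_self ℓ₀ S₀) (hqv i).2.1
      · intro h
        rw [Fin.cons_succ, Fin.cons_succ] at h
        rw [hinj h]
    · intro i
      refine Fin.cases ?_ (fun i => ?_) i
      · rw [Fin.cons_zero]
        exact ⟨hℓ₀, hℓ₀S, hNℓ₀, hall₀⟩
      · rw [Fin.cons_succ]
        obtain ⟨h1, h2, h3, h4⟩ := hqv i
        exact ⟨h1, fun h => h2 (Finset.mem_insert_of_mem h), h3, h4⟩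

end Main

end Fermat.Agent.S56lib.TWSel
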