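/-
S56lib / TWSel / Descent (lead).  Cocycle-level local–global glue for the Taylor–Wiles argument.
* `cob_on_decomp` : a level-constant cocycle on `G_ℚ` whose pull-back to the local Galois group at `q`
  is the coboundary of `m` equals `σ ↦ σ m - m` on the WHOLE decomposition group of the standard place;
* `vanish_on_inertia` : hence (for a module unramified at `q`) it vanishes on every inertia group at
  every place over `q`;
* `isLC_unr_of_locally_trivial` : **descent of the level**: a cocycle which is level-constant for a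
  field unramified outside `S'` and locally trivial at the primes of `S' \ S` is level-constant for a
  field unramified outside `S`.
-/
import Mathlib
import Fermat.Agent.S55lib.Iface.Top
import Fermat.Agent.S55lib.Iface.RamBridge
import Fermat.Agent.S56lib.TWSel.Places
import Fermat.Agent.S56lib.TWSel.LocGlob
import Fermat.Agent.S56lib.TWSel.Frob

set_option autoImplicit false
set_option linter.style.haveILetI false

noncomputable section

namespace Fermat.Agent.S56lib.TWSel

open Fermat.Agent.S55lib ExtCitation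
open scoped Pointwise

variable {k : Type} [CommRing k] (A : Rep k GQ)

/-- the standard place over `q` lies over `q` -/
lemma primeLocalPlace_liesOverPrime (q : Nat.Primes) :
    (primeLocalPlace q).LiesOverPrime (q : ℕ) := by
  haveI : Fact (q : ℕ).Prime := ⟨q.2⟩
  exact padicPlace_liesOverPrime (q : ℕ)

theorem cob_on_decomp (q : Nat.Primes) (c : GQ → A)
    (F : FieldQ) [FiniteDimensional ℚ F] [IsGalois ℚ F]
    (hcF : ∀ g s, s ∈ F.fixingSubgroup → c (g * s) = c g)
    (hAF : ∀ s ∈ F.fixingSubgroup, A.ρ s = 1) (m : A)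
    (hloc : ∀ τ : Gloc q, c (rloc q τ) = A.ρ (rloc q τ) m - m) :
    ∀ σ ∈ (primeLocalPlace q).decompositionSubgroup ℚ, c σ = A.ρ σ m - m := by
  haveI : Fact (q : ℕ).Prime := ⟨q.2⟩
  intro σ hσ
  obtain ⟨τ, hτ⟩ := exists_local_lift (q : ℕ) hσ F
  have hσeq : σ = (rloc q τ) * ((rloc q τ)⁻¹ * σ) := by group
  have hτ' : (rloc q τ)⁻¹ * σ ∈ F.fixingSubgroup := hτ
  rw [hσeq, hcF _ _ hτ', map_mul, hAF _ hτ', mul_one]
  exact hloc τ

/-- a cocycle which is a local coboundary at `q` vanishes on every inertia group over `q`, when the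
coefficient module is unramified at `q` -/
theorem vanish_on_inertia (q : Nat.Primes) (c : GQ → A)
    (hc : ∀ g h, c (g * h) = c g + A.ρ g (c h))
    (F : FieldQ) [FiniteDimensional ℚ F] [IsGalois ℚ F]
    (hcF : ∀ g s, s ∈ F.fixingSubgroup → c (g * s) = c g)
    (hAF : ∀ s ∈ F.fixingSubgroup, A.ρ s = 1)
    (hAur : ∀ P : ValuationSubring Qbar, P.LiesOverPrime (q : ℕ) →
      ∀ σ ∈ P.inertiaSubgroupIn ℚ, A.ρ σ = 1)
    (hloc : ∃ m : A, ∀ τ : Gloc q, c (rloc q τ) = A.ρ (rloc q τ) m - m) :
    ∀ P : ValuationSubring Qbar, P.LiesOverPrime (q : ℕ) →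
      ∀ σ ∈ P.inertiaSubgroupIn ℚ, c σ = 0 := by
  obtain ⟨m, hm⟩ := hloc
  intro P hP σ hσ
  have hAq := primeLocalPlace_liesOverPrime q
  obtain ⟨g, rfl⟩ := exists_smul_eq_of_liesOverPrime q.2 hAq hP
  -- `σ₀ = g⁻¹ σ g` lies in the inertia group of the standard place
  have hσ₀ : g⁻¹ * σ * g ∈ (primeLocalPlace q).inertiaSubgroupIn ℚ := by
    have := conj_mem_inertia (g := g⁻¹) hσ
    rwa [inv_smul_smul, inv_inv] at this
  have hσ₀D := (mem_inertiaSubgroupIn_iff.1 hσ₀).1
  have h0 : c (g⁻¹ * σ * g) = 0 := by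
    rw [cob_on_decomp A q c F hcF hAF m hm _ hσ₀D, hAur _ hAq _ hσ₀, Module.End.one_apply, sub_self]
  have hconj : σ = g * (g⁻¹ * σ * g) * g⁻¹ := by group
  rw [hconj, cocycle_conj hc g (g⁻¹ * σ * g), h0, map_zero, add_zero, ← hconj,
    hAur _ hP σ hσ, Module.End.one_apply, sub_self]

/-- **Descent of the level.**  `S ⊆ S'`; `A` trivial on `Gal(ℚ̄/F₀)` for a field `F₀` unramified outside
`S`; `c` a cocycle, level-constant for a field unramified outside `S'`, which is a local coboundary at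
every prime of `S' \ S`.  Then `c` is level-constant for a field unramified outside `S`. -/
theorem isLC_unr_of_locally_trivial (S S' : Finset Nat.Primes) (c : GQ → A)
    (hc : ∀ g h, c (g * h) = c g + A.ρ g (c h))
    (hcS' : Sm.IsLC₁ (MonoidHom.id GQ) (LevelClass.unr S') c)
    (hA : ∃ F₀ : FieldQ, F₀.IsUnramifiedOutside S ∧ ∀ s ∈ F₀.fixingSubgroup, A.ρ s = 1)
    (hloc : ∀ q : Nat.Primes, q ∈ S' → q ∉ S →
      ∃ m : A, ∀ τ : Gloc q, c (rloc q τ) = A.ρ (rloc q τ) m - m) :
    Sm.IsLC₁ (MonoidHom.id GQ) (LevelClass.unr S) c := by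
  classical
  have : IsGalois ℚ Qbar := ⟨⟩
  obtain ⟨F₁, hF₁, hcF₁⟩ := hcS'
  obtain ⟨F₀, hF₀, hAF₀⟩ := hA
  -- a common Galois level, unramified outside `S ∪ S'`
  have hF₀' : (LevelClass.unr (S ∪ S')).P F₀ := hF₀.mono Finset.subset_union_left
  have hF₁' : (LevelClass.unr (S ∪ S')).P F₁ := hF₁.mono Finset.subset_union_right
  obtain ⟨F, hF, hFle, hFn⟩ := (LevelClass.unr (S ∪ S')).galoisClosure (F₀ ⊔ F₁)
    ((LevelClass.unr (S ∪ S')).sup F₀ F₁ hF₀' hF₁')
  haveI : FiniteDimensional ℚ F := hF.1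
  haveI : IsGalois ℚ F := ⟨⟩
  have hcF : ∀ g s, s ∈ F.fixingSubgroup → c (g * s) = c g := fun g s hs =>
    hcF₁ g s (IntermediateField.fixingSubgroup_antitone (le_sup_right.trans hFle) hs)
  have hAF : ∀ s ∈ F.fixingSubgroup, A.ρ s = 1 := fun s hs =>
    hAF₀ s (IntermediateField.fixingSubgroup_antitone (le_sup_left.trans hFle) hs)
  -- the subgroup of right periods of `c`
  let K : Subgroup GQ :=
    { carrier := {s | A.ρ s = 1 ∧ ∀ g, c (g * s) = c g}
      mul_mem' := by
        rintro s t ⟨hs1, hs2⟩ ⟨ht1, ht2⟩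
        refine ⟨by rw [map_mul, hs1, ht1, mul_one], fun g => ?_⟩
        rw [← mul_assoc, ht2, hs2]
      one_mem' := ⟨map_one _, fun g => by rw [mul_one]⟩
      inv_mem' := by
        rintro s ⟨hs1, hs2⟩
        refine ⟨?_, fun g => ?_⟩
        · have := map_mul A.ρ s⁻¹ s
          rw [inv_mul_cancel, map_one, hs1, mul_one] at this
          exact this.symm
        · have := hs2 (g * s⁻¹)
          rw [inv_mul_cancel_right] at this
          exact this.symm }
  have hFK : F.fixingSubgroup ≤ K := fun s hs => ⟨hAF s hs, fun g => hcF g s hs⟩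
  have hKopen : IsOpen (K : Set GQ) :=
    Subgroup.isOpen_mono hFK (IntermediateField.fixingSubgroup_isOpen F)
  let Kc : ClosedSubgroup GQ := ⟨K, (OpenSubgroup.isClosed ⟨K, hKopen⟩ : _)⟩
  let F' : FieldQ := IntermediateField.fixedField K
  have hF'fix : F'.fixingSubgroup = K := InfiniteGalois.fixingSubgroup_fixedField Kc
  have hF'le : F' ≤ F := by
    have h1 : IntermediateField.fixedField F.fixingSubgroup = F :=
      InfiniteGalois.fixedField_fixingSubgroup F
    rw [← h1]
    exact IntermediateField.fixedField_antitone hFK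
  refine ⟨F', ⟨?_, fun q hq P hP σ hσ => ?_⟩, fun g s hs => ?_⟩
  · exact FiniteDimensional.of_injective (IntermediateField.inclusion hF'le).toLinearMap
      (IntermediateField.inclusion_injective hF'le)
  · rw [hF'fix]
    have hAσ : A.ρ σ = 1 := hAF₀ σ (hF₀.2 q hq P hP hσ)
    refine ⟨hAσ, fun g => ?_⟩
    by_cases hqS' : q ∈ S'
    · -- local triviality
      have hAur : ∀ P : ValuationSubring Qbar, P.LiesOverPrime (q : ℕ) →
          ∀ σ ∈ P.inertiaSubgroupIn ℚ, A.ρ σ = 1 := fun P hP σ hσ =>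
        hAF₀ σ (hF₀.2 q hq P hP hσ)
      have h0 := vanish_on_inertia A q c hc F hcF hAF hAur (hloc q hqS' hq) P hP σ hσ
      rw [hc, h0, map_zero, add_zero]
    · -- `F` is unramified at `q`
      have hq' : q ∉ S ∪ S' := by
        rw [Finset.mem_union, not_or]; exact ⟨hq, hqS'⟩
      exact hcF g σ (hF.2 q hq' P hP hσ)
  · rw [hF'fix] at hs
    exact hs.2 g

end Fermat.Agent.S56lib.TWSel
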