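/-
S56lib / TWSel / Kill (lead).  **Taylor–Wiles primes killing `H¹(G_S, A)`.**
Given, for every non-trivial class of `H¹(G_S, A)`, a "good" element `σ` (fixing `μ_{p^{n+1}}`, `ρ̄(σ)`
with distinct eigenvalues, the class non-trivial on `⟨σ⟩`) — this is the group-theoretic input (a2) —
we choose one prime per non-zero class (weak Chebotarev) such that NO non-zero class of
`H¹(G_{S ∪ Q}, A)` is locally trivial at all `q ∈ Q`.
-/
import Mathlib
import Fermat.Agent.S55lib.Iface.Top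
import Fermat.Agent.S55lib.Iface.CycloLevels
import Fermat.Agent.S56lib.TWSel.Descent

set_option autoImplicit false
set_option linter.style.haveILetI false

noncomputable section

namespace Fermat.Agent.S56lib.TWSel

open Fermat.Agent.S55lib ExtCitation Polynomial groupCohomology
open scoped Pointwise

/-- a level class is closed under finite sups -/
lemma LevelClass.finset_sup (𝓛 : LevelClass) {ι : Type*} (s : Finset ι) (f : ι → FieldQ)
    (h : ∀ i ∈ s, 𝓛.P (f i)) : 𝓛.P (s.sup f) := by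
  classical
  induction s using Finset.induction_on with
  | empty => exact 𝓛.bot
  | insert a s _ ih =>
    rw [Finset.sup_insert]
    exact 𝓛.sup _ _ (h a (Finset.mem_insert_self a s))
      (ih fun i hi => h i (Finset.mem_insert_of_mem hi))

/-- a Frobenius element at the standard place over `q` -/
theorem exists_frobenius_primeLocalPlace (q : Nat.Primes) :
    ∃ φ : GQ, (primeLocalPlace q).IsFrobeniusAt φ (q : ℕ) := by
  obtain ⟨P, σ, hP, hσ⟩ := Fermat.Agent.Helper5.exists_isFrobeniusAt (q : ℕ) q.2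
  obtain ⟨g, hg⟩ := exists_smul_eq_of_liesOverPrime q.2 hP (primeLocalPlace_liesOverPrime q)
  refine ⟨g * σ * g⁻¹, ?_⟩
  rw [hg]
  exact isFrobeniusAt_conj hσ

section

variable {R : Type} [CommRing R] (A : Rep R GQ)

/-- the cocycle identity in the form used in `TWSel` -/
lemma cocycle_of_mem {c : GQ → A} (hc : c ∈ cocycles₁ A) :
    ∀ g h, c (g * h) = c g + A.ρ g (c h) := fun g h => by
  rw [(mem_cocycles₁_iff c).1 hc g h, add_comm]

/-- unpacking `loc1 = 0` -/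
lemma exists_cob_of_loc1_eq_zero (S : Finset Nat.Primes) (q : Nat.Primes)
    (c : ↥(Sm.Z1 (MonoidHom.id GQ) (LevelClass.unr S) A))
    (h : loc1 S A q (Sm.H1π _ _ A c) = 0) :
    ∃ m : A, ∀ τ : Gloc q, (c : GQ → A) (rloc q τ) = A.ρ (rloc q τ) m - m := by
  rw [loc1, Sm.resH1_mk, Sm.H1π, Submodule.mkQ_apply, Submodule.Quotient.mk_eq_zero,
    Submodule.mem_comap] at h
  obtain ⟨m, hm⟩ := h.1
  refine ⟨m, fun τ => ?_⟩
  have := congrFun hm τ
  rw [d₀₁_hom_apply] at this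
  exact this.symm

/-- coboundaries are level-constant for any level on which `A` is trivial -/
lemma isLC_cobound (𝓛 : LevelClass) (hA : ∃ F₀ : FieldQ, 𝓛.P F₀ ∧ ∀ s ∈ F₀.fixingSubgroup, A.ρ s = 1)
    (m : A) : Sm.IsLC₁ (MonoidHom.id GQ) 𝓛 (fun g => A.ρ g m - m) := by
  obtain ⟨F₀, hF₀, hAF₀⟩ := hA
  refine ⟨F₀, hF₀, fun g s hs => ?_⟩
  have hs' : s ∈ F₀.fixingSubgroup := hs
  simp only [map_mul, hAF₀ s hs', mul_one]

end

section Kill

variable (p : ℕ) [hp : Fact p.Prime] {k : Type} [Field k] (ρbar : ResidualGaloisRep k)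
  {R : Type} [CommRing R] (A : Rep R GQ) (S : Finset Nat.Primes)

/-- the group-theoretic input (a2), for classes of `H¹(G_S, A)` -/
def GoodSigma (n : ℕ) : Prop :=
  ∀ c : GQ → A, c ∈ cocycles₁ A → Sm.IsLC₁ (MonoidHom.id GQ) (LevelClass.unr S) c →
    (¬ ∃ m : A, ∀ g, c g = A.ρ g m - m) →
    ∃ σ : GQ, (∀ μ : Qbar, μ ^ p ^ (n + 1) = 1 → σ μ = μ) ∧
      (∃ α β : k, α ≠ β ∧ LinearMap.charpoly (ρbar.ρ σ) = (X - C α) * (X - C β)) ∧
      ¬ IsCobAt A c σ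

/-- the set of TW primes as a finset of `Nat.Primes` -/
def primesOf {r : ℕ} (qv : Fin r → ℕ) (hqv : ∀ i, (qv i).Prime) : Finset Nat.Primes :=
  Finset.univ.image fun i => (⟨qv i, hqv i⟩ : Nat.Primes)

theorem exists_TW_kill
    (hsplit : ∀ τ : GQ, ∃ α β : k, LinearMap.charpoly (ρbar.ρ τ) = (X - C α) * (X - C β))
    (hpS : (⟨p, hp.out⟩ : Nat.Primes) ∈ S)
    (hρ : ∃ Fρ : FieldQ, Fρ.IsUnramifiedOutside S ∧ ∀ s ∈ Fρ.fixingSubgroup, ρbar.ρ s = 1)
    (hA : ∃ F₀ : FieldQ, F₀.IsUnramifiedOutside S ∧ ∀ s ∈ F₀.fixingSubgroup, A.ρ s = 1)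
    [Finite (H1S S A)]
    (S₀ : Finset ℕ) (hS₀ : ∀ q : Nat.Primes, q ∈ S → (q : ℕ) ∈ S₀)
    (n : ℕ) (hgood : GoodSigma p ρbar A S n) :
    ∃ qv : Fin (Nat.card {x : H1S S A // x ≠ 0}) → ℕ, Function.Injective qv ∧
      ∃ hqv : ∀ i, (qv i).Prime, (∀ i, qv i ∉ S₀ ∧ p ^ (n + 1) ∣ qv i - 1) ∧
      (∀ i, ∀ P : ValuationSubring Qbar, P.LiesOverPrime (qv i) → ∀ φ : GQ,
        P.IsFrobeniusAt φ (qv i) →
          ∃ α β : k, α ≠ β ∧ LinearMap.charpoly (ρbar.ρ φ) = (X - C α) * (X - C β)) ∧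
      ∀ x : H1S (S ∪ primesOf qv hqv) A,
        (∀ q ∈ primesOf qv hqv, loc1 (S ∪ primesOf qv hqv) A q x = 0) → x = 0 := by
  classical
  set r := Nat.card {x : H1S S A // x ≠ 0} with hr
  have hfin : Finite {x : H1S S A // x ≠ 0} := inferInstance
  let e : Fin r ≃ {x : H1S S A // x ≠ 0} := (Finite.equivFin _).symm
  -- representatives
  have hrep : ∀ i : Fin r, ∃ c : ↥(Sm.Z1 (MonoidHom.id GQ) (LevelClass.unr S) A),
      Sm.H1π _ _ A c = (e i).1 := fun i => Submodule.mkQ_surjective _ _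
  choose cz hcz using hrep
  let ψ : Fin r → GQ → A := fun i => (cz i : GQ → A)
  have hψcoc : ∀ i, ψ i ∈ cocycles₁ A := fun i => ((Sm.mem_Z1_iff _ _ A _).1 (cz i).2).1
  have hψLC : ∀ i, Sm.IsLC₁ (MonoidHom.id GQ) (LevelClass.unr S) (ψ i) :=
    fun i => ((Sm.mem_Z1_iff _ _ A _).1 (cz i).2).2
  -- the classes are non-trivial
  have hψne : ∀ i, ¬ ∃ m : A, ∀ g, ψ i g = A.ρ g m - m := by
    intro i ⟨m, hm⟩
    apply (e i).2
    rw [← hcz i, Sm.H1π, Submodule.mkQ_apply, Submodule.Quotient.mk_eq_zero, Submodule.mem_comap]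
    refine ⟨⟨m, ?_⟩, ((Sm.mem_Z1_iff _ _ A _).1 (cz i).2).2⟩
    funext g
    rw [d₀₁_hom_apply]
    exact (hm g).symm
  -- good elements
  have hσex : ∀ i, ∃ σ : GQ, (∀ μ : Qbar, μ ^ p ^ (n + 1) = 1 → σ μ = μ) ∧
      (∃ α β : k, α ≠ β ∧ LinearMap.charpoly (ρbar.ρ σ) = (X - C α) * (X - C β)) ∧
      ¬ IsCobAt A (ψ i) σ := fun i => hgood (ψ i) (hψcoc i) (hψLC i) (hψne i)
  choose σ hσμ hσchar hσcob using hσex
  -- the root of unity and the common level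
  have hN : 0 < p ^ (n + 1) := pow_pos hp.out.pos _
  haveI : NeZero (p ^ (n + 1)) := ⟨hN.ne'⟩
  obtain ⟨ζ, hζ⟩ := HasEnoughRootsOfUnity.exists_primitiveRoot Qbar (p ^ (n + 1))
  obtain ⟨Fζ, hFζ, -, hζmem⟩ := exists_level_mem_of_pow_eq_one S hpS (n + 1) hζ.pow_eq_one
  obtain ⟨Fρ, hFρ, hρF⟩ := hρ
  obtain ⟨F₀, hF₀, hAF₀⟩ := hA
  choose Fψ hFψ hFψc using hψLC
  obtain ⟨F, hF, hFle, hFn⟩ := (LevelClass.unr S).galoisClosure
    (Fζ ⊔ Fρ ⊔ F₀ ⊔ Finset.univ.sup Fψ)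
    ((LevelClass.unr S).sup _ _ ((LevelClass.unr S).sup _ _ ((LevelClass.unr S).sup _ _ hFζ hFρ) hF₀)
      (LevelClass.finset_sup _ _ _ fun i _ => hFψ i))
  haveI : FiniteDimensional ℚ F := hF.1
  haveI : IsGalois ℚ F := ⟨⟩
  have hle1 : Fζ ≤ F := (le_sup_left.trans (le_sup_left.trans le_sup_left)).trans hFle
  have hle2 : Fρ ≤ F := (le_sup_right.trans (le_sup_left.trans le_sup_left)).trans hFle
  have hle3 : F₀ ≤ F := (le_sup_right.trans le_sup_left).trans hFle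
  have hle4 : ∀ i, Fψ i ≤ F := fun i =>
    ((Finset.le_sup (f := Fψ) (Finset.mem_univ i)).trans le_sup_right).trans hFle
  have hFur : ∀ ℓ : ℕ, ℓ.Prime → ℓ ∉ S₀ → ∀ A' : ValuationSubring Qbar, A'.LiesOverPrime ℓ →
      A'.inertiaSubgroupIn ℚ ≤ F.fixingSubgroup := by
    intro ℓ hℓ hℓS₀ A' hA'
    exact hF.2 ⟨ℓ, hℓ⟩ (fun h => hℓS₀ (hS₀ _ h)) A' hA'
  have hNS₀ : ∀ ℓ : ℕ, ℓ.Prime → ℓ ∣ p ^ (n + 1) → ℓ ∈ S₀ := by
    intro ℓ hℓ hdvd
    have : ℓ = p := (Nat.prime_dvd_prime_iff_eq hℓ hp.out).1 (hℓ.dvd_of_dvd_pow hdvd)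
    rw [this]
    exact hS₀ _ hpS
  obtain ⟨qv, hinj, hqvall⟩ := exists_TW_primes ρbar A hsplit F
    (fun s hs => hρF s (IntermediateField.fixingSubgroup_antitone hle2 hs))
    (p ^ (n + 1)) hN ζ hζ (hle1 hζmem)
    (fun s hs => hAF₀ s (IntermediateField.fixingSubgroup_antitone hle3 hs))
    r S₀ hFur hNS₀ ψ (fun i => cocycle_of_mem A (hψcoc i))
    (fun i g s hs => hFψc i g s (IntermediateField.fixingSubgroup_antitone (hle4 i) hs))
    σ (fun i => hσμ i ζ hζ.pow_eq_one) hσchar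
  refine ⟨qv, hinj, fun i => (hqvall i).1, fun i => ⟨(hqvall i).2.1, (hqvall i).2.2.1⟩,
    fun i P hP φ hφ => ((hqvall i).2.2.2 P hP φ hφ).1, ?_⟩
  -- the killing property
  set Q := primesOf qv (fun i => (hqvall i).1) with hQ
  intro x hx
  obtain ⟨c, rfl⟩ := Submodule.mkQ_surjective _ x
  have hccoc : (c : GQ → A) ∈ cocycles₁ A := ((Sm.mem_Z1_iff _ _ A _).1 c.2).1
  have hcLC := ((Sm.mem_Z1_iff _ _ A _).1 c.2).2
  have hc := cocycle_of_mem A hccoc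
  have hlocQ : ∀ q ∈ Q, ∃ m : A, ∀ τ : Gloc q, (c : GQ → A) (rloc q τ) = A.ρ (rloc q τ) m - m :=
    fun q hq => exists_cob_of_loc1_eq_zero A _ q c (hx q hq)
  -- descent of the level
  have hcLC' : Sm.IsLC₁ (MonoidHom.id GQ) (LevelClass.unr S) (c : GQ → A) := by
    refine isLC_unr_of_locally_trivial A S (S ∪ Q) c hc hcLC ⟨F₀, hF₀, hAF₀⟩ ?_
    intro q hqSQ hqS
    rcases Finset.mem_union.1 hqSQ with h | h
    · exact absurd h hqS
    · exact hlocQ q h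
  let c₀ : ↥(Sm.Z1 (MonoidHom.id GQ) (LevelClass.unr S) A) :=
    ⟨(c : GQ → A), (Sm.mem_Z1_iff _ _ A _).2 ⟨hccoc, hcLC'⟩⟩
  by_cases hx₀ : Sm.H1π _ _ A c₀ = 0
  · -- `c` is a coboundary
    rw [Sm.H1π, Submodule.mkQ_apply, Submodule.Quotient.mk_eq_zero, Submodule.mem_comap] at hx₀
    rw [Submodule.mkQ_apply, Submodule.Quotient.mk_eq_zero, Submodule.mem_comap]
    exact ⟨hx₀.1, hcLC⟩
  · exfalso
    set i : Fin r := e.symm ⟨Sm.H1π _ _ A c₀, hx₀⟩ with hi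
    have hei : (e i).1 = Sm.H1π _ _ A c₀ := by rw [hi, Equiv.apply_symm_apply]
    -- `c - ψ i` is a coboundary
    have hdiff : ∃ m₁ : A, ∀ g, (c : GQ → A) g - ψ i g = A.ρ g m₁ - m₁ := by
      have h1 : Sm.H1π _ _ A (c₀ - cz i) = 0 := by
        rw [map_sub, hcz i, hei, sub_self]
      rw [Sm.H1π, Submodule.mkQ_apply, Submodule.Quotient.mk_eq_zero, Submodule.mem_comap] at h1
      obtain ⟨m₁, hm₁⟩ := h1.1
      refine ⟨m₁, fun g => ?_⟩
      have := congrFun hm₁ g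
      rw [d₀₁_hom_apply] at this
      exact this.symm
    obtain ⟨m₁, hm₁⟩ := hdiff
    -- local triviality at `q_i`
    let qi : Nat.Primes := ⟨qv i, (hqvall i).1⟩
    have hqiQ : qi ∈ Q := by
      rw [hQ, primesOf, Finset.mem_image]
      exact ⟨i, Finset.mem_univ i, rfl⟩
    obtain ⟨m₂, hm₂⟩ := hlocQ qi hqiQ
    -- a Galois level for `c`
    obtain ⟨Fc, hFc, hFcc⟩ := hcLC
    obtain ⟨F', hF', hF'le, hF'n⟩ := (LevelClass.unr (S ∪ Q)).galoisClosure (F₀ ⊔ Fc)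
      ((LevelClass.unr (S ∪ Q)).sup _ _ (hF₀.mono Finset.subset_union_left) hFc)
    haveI : FiniteDimensional ℚ F' := hF'.1
    haveI : IsGalois ℚ F' := ⟨⟩
    have hdec := cob_on_decomp A qi (c : GQ → A) F'
      (fun g s hs => hFcc g s
        (IntermediateField.fixingSubgroup_antitone (le_sup_right.trans hF'le) hs))
      (fun s hs => hAF₀ s (IntermediateField.fixingSubgroup_antitone (le_sup_left.trans hF'le) hs))
      m₂ hm₂
    obtain ⟨φ, hφ⟩ := exists_frobenius_primeLocalPlace qi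
    have hφD : φ ∈ (primeLocalPlace qi).decompositionSubgroup ℚ := (isFrobeniusAt_iff.1 hφ).1
    have hcφ := hdec φ hφD
    -- transfer to `ψ i`
    have hψφ : IsCobAt A (ψ i) φ := by
      refine ⟨m₂ - m₁, ?_⟩
      have := hm₁ φ
      rw [hcφ] at this
      rw [map_sub]
      have h2 : ψ i φ = (A.ρ φ m₂ - m₂) - (A.ρ φ m₁ - m₁) := by
        rw [← this]; abel
      rw [h2]; abel
    exact hσcob i (((hqvall i).2.2.2 (primeLocalPlace qi) (primeLocalPlace_liesOverPrime qi) φ hφ).2 hψφ)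

end Kill

end Fermat.Agent.S56lib.TWSel
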